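import Fermat.Agent.Nod.Wx
import Fermat.Agent.CarE.Phi

/-!
# Algebraic and analytic Atkin-Lehner operators, general case
-/

set_option autoImplicit false
set_option linter.style.haveILetI false
set_option linter.unusedSectionVars false

noncomputable section

namespace Fermat.Agent.CarK

open ModularCurve Polynomial IntermediateField Fermat.Agent.ModPoly Fermat.Agent.Red
  Fermat.Agent.Cusp Fermat.Agent.SemiSt Fermat.Agent.ALCoh Fermat.Agent.Kum Fermat.Agent.KumF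
  Fermat.Agent.HeckeProd Fermat.Agent.Nod Fermat.Agent.AL

theorem qExpand_Jc_11 (m : ℕ+) :
    haveI : NeZero (m : ℕ) := ⟨m.ne_zero⟩
    qExpand ℂ (m : ℕ) (Jc 1 1) = (Jc 1 m : LaurentSeries ℂ) := by
  haveI : NeZero (m : ℕ) := ⟨m.ne_zero⟩
  rw [← Sb_one_eq (m : ℕ) m rfl, Sb_Jc, one_pow, one_mul, mul_one]

theorem Jc_11_mem : (Jc 1 1 : LaurentSeries ℂ) ∈ MFun 1 := by
  haveI : NeZero (1 : ℕ) := ⟨one_ne_zero⟩
  exact Jc_one_mem_MFun (m := 1) (by rw [PNat.one_coe])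

/-- `w_Q` on the generators -/
theorem wx_Jc {N Q M : ℕ} [NeZero N] (hN : N = Q * M) (hQN : Q ∣ N) (hco : Q.Coprime (N / Q))
    {r r' d : ℕ+} (hr : (r : ℕ) * r' = Q) (hd : (d : ℕ) ∣ M) :
    wx hQN hco (Jc 1 (r * d)) = Jc 1 (r' * d) := by
  haveI : NeZero ((r * d : ℕ+) : ℕ) := ⟨(r * d).ne_zero⟩
  haveI : NeZero ((r' * d : ℕ+) : ℕ) := ⟨(r' * d).ne_zero⟩
  have hQ0 : Q ≠ 0 := by
    rw [← hr]
    exact mul_ne_zero r.ne_zero r'.ne_zero
  have hQZ : (Q : ℤ) ≠ 0 := by exact_mod_cast hQ0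
  have hd1 : 1 * ((r * d : ℕ+) : ℕ) ∣ N := by
    rw [one_mul, hN, PNat.mul_coe]
    exact mul_dvd_mul ⟨r', hr.symm⟩ hd
  have hd2 : 1 * ((r' * d : ℕ+) : ℕ) ∣ N := by
    rw [one_mul, hN, PNat.mul_coe]
    exact mul_dvd_mul ⟨r, by rw [mul_comm]; exact hr.symm⟩ hd
  have hA := wMat_mem hQN hco
  have hdg : ∀ m : ℕ+, ∀ _ : Unit, 0 < (dg (m : ℕ)).det := fun m _ => by
    simp [Matrix.det_fin_two_of]
  have hf1 := famResq (M := 1) (N := N) (r * d).ne_zero hd1
  have hf2 := famResq (M := 1) (N := N) (r' * d).ne_zero hd2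
  have hfW := famW hQN hQ0 hA
  have e1 := mop_mop hf1 (hdg _) hfW (fun _ => det_wMat_pos hQN hco) Jc_11_mem
  rw [mop_resq (M := 1) (N := N) (q := ((r * d : ℕ+) : ℕ)) hd1 Jc_11_mem, qExpand_Jc_11] at e1
  rw [wx, e1, ← qExpand_Jc_11 (r' * d), ← mop_resq (M := 1) (N := N) (q := ((r' * d : ℕ+) : ℕ)) hd2
    Jc_11_mem]
  obtain ⟨h1, ⟨a, ha⟩, ⟨c, hc⟩, ⟨e, he⟩⟩ := id hA
  obtain ⟨M', hM'⟩ := hd
  set B := wMat hQN hco with hB
  rw [Matrix.det_fin_two, ha, hc, he] at h1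
  have hrZ : (r : ℤ) ≠ 0 := by exact_mod_cast r.ne_zero
  have hNZ : (N : ℤ) = Q * (d * M') := by rw [hN, hM']; push_cast; ring
  have hrr : ((r : ℕ) : ℤ) * ((r' : ℕ) : ℤ) = Q := by exact_mod_cast hr
  rw [hNZ] at hc h1
  refine mop_congr (hf1.mul hfW) (fun z => ?_) hf2 (hdg _)
    (Equiv.prodUnique Unit Unit) (c := 1) (c' := (r : ℕ)) one_ne_zero (by exact_mod_cast r.ne_zero)
    (fun z => ⟨mkG !![r * a, d * B 0 1; M' * c, r' * e] ?_ ?_, ?_⟩) Jc_11_mem
  · rw [Matrix.det_mul]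
    exact mul_pos (hdg _ ()) (det_wMat_pos hQN hco)
  · rw [Matrix.det_fin_two_of]
    refine mul_left_cancel₀ hQZ ?_
    linear_combination h1 + (Q * a * e : ℤ) * hrr
  · simp
  · rw [coe_mkG, one_smul]
    apply mat_ext <;> simp [Matrix.mul_apply, Fin.sum_univ_two]
    · rw [ha, ← hrr]; ring
    · ring
    · rw [hc, ← hrr]; ring
    · rw [he, ← hrr]; ring

variable {K : Type*} [Field K] [IsAlgClosed K] [CharZero K] [Algebra ℚ K] (ι : K →+* ℂ)

theorem coe_jm {N : ℕ} {m : ℕ+} (hm : (m : ℕ) ∣ N) :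
    ((jm K m hm : FF K N) : LaurentSeries K) = Jc 1 m := rfl

/-- the algebraic Atkin-Lehner involution is the analytic one -/
theorem coeffMap_wq {Q M : ℕ} [NeZero Q] [NeZero M] (hN : ((Q * M : ℕ) : K) ≠ 0)
    (hco : Q.Coprime M) (hQN : Q ∣ Q * M) (hco' : Q.Coprime (Q * M / Q)) (x : FF K (Q * M)) :
    coeffMap ι (wq hN hco x : LaurentSeries K) =
      wx (N := Q * M) hQN hco' (coeffMap ι (x : LaurentSeries K)) := by
  have hmem : ∀ x : FF K (Q * M), coeffMap ι (x : LaurentSeries K) ∈ MFun (Q * M) := fun x =>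
    coeffMap_mem_MFun_FF ι x
  let c : FF K (Q * M) →+* MFun (Q * M) :=
    ((coeffMap ι).comp (FF K (Q * M)).val.toRingHom).codRestrict (MFun (Q * M)) hmem
  let G : FF K (Q * M) →+* LaurentSeries ℂ :=
    (MFun (Q * M)).subtype.comp ((wRing (N := Q * M) hQN hco').comp c)
  let F : FF K (Q * M) →+* LaurentSeries ℂ :=
    (coeffMap ι).comp ((FF K (Q * M)).val.toRingHom.comp (wq hN hco).toRingEquiv.toRingHom)
  change F x = G x
  have hx : x ∈ IntermediateField.adjoin K {x : FF K (Q * M) |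
      ∃ (m : ℕ+) (hm : (m : ℕ) ∣ (Q * M)), x = jm K m hm} := by
    rw [adjoin_jm_eq_top]; exact IntermediateField.mem_top
  induction hx using IntermediateField.adjoin_induction with
  | mem x hx =>
    obtain ⟨m, hm, rfl⟩ := hx
    obtain ⟨r, r', d, hmd, hrr, hd⟩ := exists_factor hco (NeZero.pos Q) hm
    subst hmd
    have hm' : ((r' * d : ℕ+) : ℕ) ∣ Q * M := by
      rw [PNat.mul_coe]
      exact mul_dvd_mul ⟨r, by rw [mul_comm]; exact hrr.symm⟩ hd
    have h1 : wq hN hco (jm K (r * d) hm) = jm K (r' * d) hm' :=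
      wq_jm _ hco hrr hd hm hm'
    have h2 : F (jm K (r * d) hm) = Jc 1 (r' * d) := by
      change coeffMap ι ((wq hN hco (jm K (r * d) hm) : FF K (Q * M)) : LaurentSeries K) = _
      rw [h1]
      exact coeffMap_Jc_one ι _
    have h3 : G (jm K (r * d) hm) = wx (N := Q * M) hQN hco' (Jc 1 (r * d)) := by
      change wx _ _ (coeffMap ι ((jm K (r * d) hm : FF K (Q * M)) : LaurentSeries K)) = _
      rw [show coeffMap ι ((jm K (r * d) hm : FF K (Q * M)) : LaurentSeries K) = Jc 1 (r * d) from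
        coeffMap_Jc_one ι _]
    rw [h2, h3, wx_Jc rfl hQN hco' hrr hd]
  | algebraMap a =>
    have h1 : F (algebraMap K (FF K (Q * M)) a) = HahnSeries.C (ι a) := by
      change coeffMap ι ((wq hN hco (algebraMap K (FF K (Q * M)) a) : FF K (Q * M)) :
        LaurentSeries K) = _
      rw [AlgEquiv.commutes]
      change coeffMap ι (algebraMap K (LaurentSeries K) a) = _
      rw [algebraMap_eq_C, coeffMap_C]
    have h2 : G (algebraMap K (FF K (Q * M)) a) = HahnSeries.C (ι a) := by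
      change wx _ _ (coeffMap ι (algebraMap K (LaurentSeries K) a)) = _
      rw [algebraMap_eq_C, coeffMap_C, wx_C]
    rw [h1, h2]
  | add x y _ _ hx hy => rw [map_add, map_add, hx, hy]
  | inv x _ hx => rw [map_inv₀, map_inv₀, hx]
  | mul x y _ _ hx hy => rw [map_mul, map_mul, hx, hy]

/-! ### norms of functions with vanishing transfer -/

/-- `rep_NN_wx` without constraints on the form of the level -/
theorem rep_NN_wx' {N M' Q Q' q m : ℕ} [NeZero N] [NeZero M'] [NeZero q] [NeZero m]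
    {φ : Additive (G0 N) →+ ZMod m} {X : LaurentSeries ℂ} (hN : N = M' * q) (hQ' : Q' = Q * q)
    (hq : q.Prime) (hQM : Q ∣ M') (hQ : q ∣ Q) (hco : Q.Coprime (M' / Q)) (hQN : Q' ∣ N)
    (hco' : Q'.Coprime (N / Q')) (hMN : M' ∣ N) {ζ : ℂˣ} (hζ : IsPrimitiveRoot ζ q)
    (h : Rep N X φ) :
    Rep M' (NN q ζ (wx hQN hco' X)) (wop hQM hco (ZMod m) (tr hMN (ZMod m) φ)) := by
  subst hN
  subst hQ'
  exact rep_NN_wx hq hQM hQ hco hco' hζ h

/-- a function over `K` whose image over `ℂ` has trivial Kummer character -/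
theorem exists_pow_of_rep {N m : ℕ} [NeZero N] [NeZero m] {X : LaurentSeries K}
    (h : Rep N (coeffMap ι X) (0 : Additive (G0 N) →+ ZMod m)) :
    ∃ z : FF K N, X = (z : LaurentSeries K) ^ m := by
  have h1 : X ∈ FK K N := mem_FK_of_mem_MFun ι N h.mem
  have hE : FK K N = modularFunctionFieldFullC K N := X0Genus.baseChange_eq K N
  have h2 : X ∈ FF K N := le_of_eq hE h1
  obtain ⟨z, hz⟩ := exists_pow_FF ι (x := (⟨X, h2⟩ : FF K N)) h
  refine ⟨z, ?_⟩
  have := congrArg Subtype.val hz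
  rwa [SubmonoidClass.coe_pow] at this

section Norm

variable {q M : ℕ} [hq : Fact q.Prime] [NeZero M] (hco : q.Coprime M) {m : ℕ} [NeZero m]

theorem coeffMap_w2 (hQN : q ^ 2 ∣ q ^ 2 * M) (hco' : (q ^ 2).Coprime (q ^ 2 * M / q ^ 2))
    (x : FF K (q ^ 2 * M)) :
    coeffMap ι (CarE.w2 K hco x : LaurentSeries K) =
      wx (N := q ^ 2 * M) hQN hco' (coeffMap ι (x : LaurentSeries K)) :=
  coeffMap_wq ι _ _ hQN hco' x

theorem coprime_aux (hco : q.Coprime M) : q.Coprime (q * M / q) := by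
  rwa [Nat.mul_div_cancel_left _ hq.out.pos]

/-- the norm of `w x` is an `m`-th power if the transfer of the character of `x` vanishes -/
theorem exists_NN_w2 {x : FF K (q ^ 2 * M)} {φ : Additive (G0 (q ^ 2 * M)) →+ ZMod m}
    (h : Rep (q ^ 2 * M) (coeffMap ι (x : LaurentSeries K)) φ) (hMN : q * M ∣ q ^ 2 * M)
    (htr : tr hMN (ZMod m) φ = 0) {ζ : Kˣ} (hζ : IsPrimitiveRoot ζ q) :
    ∃ z : FF K (q * M), NN q ζ (CarE.w2 K hco x : LaurentSeries K) = (z : LaurentSeries K) ^ m := by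
  have hQN : q ^ 2 ∣ q ^ 2 * M := dvd_mul_right _ _
  have hco' : (q ^ 2).Coprime (q ^ 2 * M / q ^ 2) := by
    rw [Nat.mul_div_cancel_left _ (pow_pos hq.out.pos 2)]
    exact hco.pow_left 2
  have hζ' : IsPrimitiveRoot (Units.map (ι : K →* ℂ) ζ) q :=
    hζ.map_of_injective (f := Units.map (ι : K →* ℂ)) (Units.map_injective ι.injective)
  apply exists_pow_of_rep ι
  rw [coeffMap_NN, coeffMap_w2 ι hco hQN hco']
  have h1 := rep_NN_wx' (N := q ^ 2 * M) (M' := q * M) (Q := q) (Q' := q ^ 2) (by ring)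
    (pow_two q) hq.out (dvd_mul_right q M) dvd_rfl (coprime_aux hco) hQN hco' hMN hζ' h
  rwa [htr, map_zero] at h1

include hco in
/-- the norm of `x` is an `m`-th power if the transfer of the character of `w x` vanishes -/
theorem exists_NN {x : FF K (q ^ 2 * M)} {φ : Additive (G0 (q ^ 2 * M)) →+ ZMod m}
    (h : Rep (q ^ 2 * M) (coeffMap ι (x : LaurentSeries K)) φ) (hMN : q * M ∣ q ^ 2 * M)
    (hQN : q ^ 2 ∣ q ^ 2 * M) (hco' : (q ^ 2).Coprime (q ^ 2 * M / q ^ 2))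
    (htr : tr hMN (ZMod m) (wop hQN hco' (ZMod m) φ) = 0) {ζ : Kˣ} (hζ : IsPrimitiveRoot ζ q) :
    ∃ z : FF K (q * M), NN q ζ (x : LaurentSeries K) = (z : LaurentSeries K) ^ m := by
  have h1 : Rep (q ^ 2 * M) (coeffMap ι (CarE.w2 K hco x : LaurentSeries K))
      (wop hQN hco' (ZMod m) φ) := by
    rw [coeffMap_w2 ι hco hQN hco']
    exact rep_wx hQN hco' h
  obtain ⟨z, hz⟩ := exists_NN_w2 ι hco h1 hMN htr hζ
  rw [CarE.w2_w2] at hz
  exact ⟨z, hz⟩

end Norm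

end Fermat.Agent.CarK
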