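import Fermat.Agent.CarK.Can
import Fermat.Agent.CarK.Bridge
import Fermat.Agent.CarE.Desc
import Fermat.Agent.Flat.Local
import Fermat.Agent.HD.ClaimMod
import Fermat.Agent.Places.Existence

/-!
# Kummer dictionary for the claim at level `q ^ 2 M`
-/

set_option autoImplicit false
set_option linter.unusedSectionVars false
set_option linter.style.haveILetI false

noncomputable section

namespace Fermat.Agent.CarK

open Fermat.Agent.MFLib ModularCurve AlgebraicCurve Fermat.Agent.ModPoly Fermat.Agent.Curve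
  Fermat.Agent.X0Genus Fermat.Agent.KumF Fermat.Agent.RR
  Fermat.Agent.HeckeHom Fermat.Agent.Kum Fermat.Agent.HeckeProd Fermat.Agent.ALCoh

local notation "Qb" => AlgebraicClosure ℚ

variable {q M : ℕ} [hq : Fact q.Prime] [NeZero M]

/-- The output of the geometric argument: functions over the fixed field of inertia whose divisor
is divisible by `m` and whose two norms are `m`-th powers are `m`-th powers up to the
exponent `c`. -/
def CarF0 (A : ValuationSubring Qb) (hco : q.Coprime M) (ζ : Qbˣ) (c : ℕ) : Prop :=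
  ∀ m : ℕ, ¬ q ∣ m → m ≠ 0 → ∀ f : FF (Flat.K0 A) (q ^ 2 * M), f ≠ 0 →
    (∀ v : Place Qb (FF Qb (q ^ 2 * M)), (m : ℤ) ∣ v.ord (CarE.emb (Flat.K0 A) Qb (q ^ 2 * M) f)) →
    (∃ z : FF Qb (q * M), NN q ζ (CarE.emb (Flat.K0 A) Qb (q ^ 2 * M) f : LaurentSeries Qb) =
      (z : LaurentSeries Qb) ^ m) →
    (∃ z : FF Qb (q * M), NN q ζ (CarE.w2 Qb hco (CarE.emb (Flat.K0 A) Qb (q ^ 2 * M) f) :
      LaurentSeries Qb) = (z : LaurentSeries Qb) ^ m) →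
    ∃ x : FF Qb (q ^ 2 * M), x ^ m = CarE.emb (Flat.K0 A) Qb (q ^ 2 * M) f ^ c

variable {A : ValuationSubring Qb} {hco : q.Coprime M} {ζ : Qbˣ} {c : ℕ}

theorem CarF0.apply_E (h : CarF0 A hco ζ c) {m : ℕ} (hm : ¬ q ∣ m) (hm0 : m ≠ 0)
    {E : IntermediateField Qb (LaurentSeries Qb)} (hE : E = modularFunctionFieldFullC Qb (q ^ 2 * M))
    {y : E} (hy : y ≠ 0) (hD : ∀ v : Place Qb E, (m : ℤ) ∣ v.ord y)
    (hK : ∀ i : ℤ, (y : LaurentSeries Qb).coeff i ∈ Flat.K0 A)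
    {x₀ : FF Qb (q ^ 2 * M)} (hx₀ : (x₀ : LaurentSeries Qb) = y)
    (h1 : ∃ z : FF Qb (q * M), NN q ζ (x₀ : LaurentSeries Qb) = (z : LaurentSeries Qb) ^ m)
    (h2 : ∃ z : FF Qb (q * M), NN q ζ (CarE.w2 Qb hco x₀ : LaurentSeries Qb) =
      (z : LaurentSeries Qb) ^ m) : ∃ t : E, y ^ c = t ^ m := by
  subst hE
  have hxy : x₀ = y := Subtype.ext hx₀
  subst hxy
  obtain ⟨f, hf⟩ := CarE.exists_of_coeff (K := Flat.K0 A) (Ω := Qb) (N := q ^ 2 * M) (y := x₀)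
    (fun i => ⟨⟨_, hK i⟩, rfl⟩)
  rw [← hf] at hy hD h1 h2 ⊢
  have hf0 : f ≠ 0 := by
    rintro rfl
    exact hy (map_zero _)
  obtain ⟨t, ht⟩ := h m hm hm0 f hf0 hD h1 h2
  exact ⟨t, ht.symm⟩

/-- classes fixed by inertia with vanishing transfers are killed by `c` -/
theorem CarF0.nsmul_eq_zero (h : CarF0 A hco ζ c) (hζ : IsPrimitiveRoot ζ q) (ι : Qb →+* ℂ) {m : ℕ}
    [NeZero m] (hm : ¬ q ∣ m) (hMN : q * M ∣ q ^ 2 * M) (hQN : q ^ 2 ∣ q ^ 2 * M)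
    (hco' : (q ^ 2).Coprime (q ^ 2 * M / q ^ 2)) (φ : LZ (q ^ 2 * M))
    (hφ : ∀ σ ∈ A.inertiaSubgroupIn ℚ, rhoF ι m σ (mkX φ : XL (q ^ 2 * M) m) = mkX φ)
    (h1 : tr hMN (ZMod m) (redI m φ) = 0)
    (h2 : tr hMN (ZMod m) (wop hQN hco' (ZMod m) (redI m φ)) = 0) :
    c • (mkX φ : XL (q ^ 2 * M) m) = 0 := by
  obtain ⟨x, y, z, hx, hxφ, hz, hyx, hkd, hfix⟩ := exists_fixed_rep (K := Qb) ι
    (I := (A.inertiaSubgroupIn ℚ : Set (Qb ≃ₐ[ℚ] Qb))) (ξ := (mkX φ : XL (q ^ 2 * M) m)) hφ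
  have hrep : Rep (q ^ 2 * M) (coeffMap ι x.1) (redI m φ) := by
    obtain ⟨ψ, hψ⟩ := hx.exists_mk ι
    have e1 := cls_eq ι hx hψ
    rw [hxφ, mkX_eq_iff] at e1
    rw [e1]
    exact hψ
  have hrepy : Rep (q ^ 2 * M) (coeffMap ι y.1) (redI m φ) := by
    have e1 : Rep (q ^ 2 * M) (coeffMap ι z.1 ^ m) (0 : Additive (G0 (q ^ 2 * M)) →+ ZMod m) :=
      rep_pow (coeffMap_mem_MFun ι z.2) (KD.coeffMap_ne_zero ι hz)
    have e2 := hrep.mul e1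
    rw [add_zero, ← map_pow, ← map_mul] at e2
    rw [hyx]
    exact e2
  have hE : FK Qb (q ^ 2 * M) = modularFunctionFieldFullC Qb (q ^ 2 * M) :=
    X0Genus.baseChange_eq Qb (q ^ 2 * M)
  let x₀ : FF Qb (q ^ 2 * M) := ⟨y.1, le_of_eq hE y.2⟩
  have hrep₀ : Rep (q ^ 2 * M) (coeffMap ι (x₀ : LaurentSeries Qb)) (redI m φ) := hrepy
  have hK : ∀ i : ℤ, (y : LaurentSeries Qb).coeff i ∈ Flat.K0 A := by
    intro i
    rw [Flat.K0, IntermediateField.mem_fixedField_iff]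
    intro σ hσ
    have e1 := congrArg (fun w : FK Qb (q ^ 2 * M) => (w : LaurentSeries Qb).coeff i) (hfix σ hσ)
    have e2 : ((galK σ y : FK Qb (q ^ 2 * M)) : LaurentSeries Qb).coeff i =
        σ ((y : LaurentSeries Qb).coeff i) := by
      rw [coe_galK, coeffMap_coeff]
      rfl
    rw [← e2]
    exact e1
  obtain ⟨t, ht⟩ := h.apply_E hm (NeZero.ne m) hE hkd.1 hkd.2 hK (x₀ := x₀) rfl
    (exists_NN ι hco hrep₀ hMN hQN hco' h2 hζ) (exists_NN_w2 ι hco hrep₀ hMN h1 hζ)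
  rw [← hxφ]
  exact nsmul_eq_zero_of_pow ι hx hz hyx ht

/-- **ClaimF'** from the geometric argument. -/
theorem claimF'_of_car (ι : Qb →+* ℂ) {N N' q M p : ℕ} [NeZero N] [NeZero M] [Fact q.Prime]
    [Fact p.Prime] (hN : N = q ^ 2 * M) (hN' : N' = q * M) (hco : q.Coprime M) (hqp : q ≠ p)
    (hcar : ∀ A : ValuationSubring Qb, A.LiesOverPrime q → ∀ ζ : Qbˣ, IsPrimitiveRoot ζ q →
      ∃ c : ℕ, 0 < c ∧ CarF0 A hco ζ c) : HD.ClaimF' ι N N' q p := by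
  subst hN
  subst hN'
  intro hMN hQN hco'
  have hqq : q.Prime := Fact.out
  have hp : p.Prime := Fact.out
  obtain ⟨A, hA⟩ := Places.exists_liesOverPrime Qb hqq
  obtain ⟨ζ, hζ⟩ := Cusp.exists_zeta (k := Qb) (N := q) (CarE.cast_ne Qb q)
  obtain ⟨c, hc, hcar'⟩ := hcar A hA ζ hζ
  refine ⟨A, hA, c, hc, fun n φ hφ h1 h2 => ?_⟩
  have hm : ¬ q ∣ p ^ n := fun hd =>
    hqp ((Nat.prime_dvd_prime_iff_eq hqq hp).1 (hqq.dvd_of_dvd_pow hd))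
  exact hcar'.nsmul_eq_zero hζ ι hm hMN hQN hco' φ hφ h1 h2

/-- the hypothesis of `HD.s36_of_claim`, from the geometric argument -/
theorem s36_hclaim (ι : Qb →+* ℂ)
    (hcar : ∀ (q M r : ℕ) [Fact q.Prime] [NeZero M] (hco : q.Coprime M), r.Prime → r % 12 = 11 →
      r ∣ M → ∀ A : ValuationSubring Qb, A.LiesOverPrime q → ∀ ζ : Qbˣ, IsPrimitiveRoot ζ q →
      ∃ c : ℕ, 0 < c ∧ CarF0 A hco ζ c)
    (M₀ q r p : ℕ) [NeZero (q ^ 2 * M₀ * r)] [Fact p.Prime] (hq : q.Prime) (hr : r.Prime)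
    (hr11 : r % 12 = 11) (hqM : ¬ q ∣ M₀) (hrM : ¬ r ∣ q * M₀) (hqp : q ≠ p) (_hrp : r ≠ p) :
    HD.ClaimF' ι (q ^ 2 * M₀ * r) (q * M₀ * r) q p := by
  haveI : Fact q.Prime := ⟨hq⟩
  have h0 := NeZero.ne (q ^ 2 * M₀ * r)
  have hM0 : M₀ * r ≠ 0 := by
    rintro h
    apply h0
    rw [mul_assoc, h, mul_zero]
  haveI : NeZero (M₀ * r) := ⟨hM0⟩
  have hco : q.Coprime (M₀ * r) := by
    rw [Nat.Prime.coprime_iff_not_dvd hq]
    intro hd
    rcases hq.dvd_mul.1 hd with h | h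
    · exact hqM h
    · rw [Nat.prime_dvd_prime_iff_eq hq hr] at h
      exact hrM (by rw [h]; exact dvd_mul_right _ _)
  exact claimF'_of_car ι (mul_assoc _ _ _) (mul_assoc _ _ _) hco hqp
    (hcar q (M₀ * r) r hco hr hr11 (dvd_mul_left _ _))

end Fermat.Agent.CarK
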