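import Fermat.Agent.Kum.Action
import Fermat.Agent.Nod.Kummer

/-!
# Canonical representatives of Galois invariant Kummer classes
-/

set_option autoImplicit false
set_option linter.unusedSectionVars false
set_option linter.style.haveILetI false

noncomputable section

namespace Fermat.Agent.CarK

open Fermat.Agent.MFLib ModularCurve AlgebraicCurve Fermat.Agent.ModPoly Fermat.Agent.Curve
  Fermat.Agent.X0Genus Fermat.Agent.JFun Fermat.Agent.Cosets Fermat.Agent.KumF Fermat.Agent.RR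
  Fermat.Agent.HeckeHom Fermat.Agent.Kum

variable {K : Type*} [Field K] [Algebra ℚ K] [IsAlgClosed K] [CharZero K] {N : ℕ} [NeZero N]
  {m : ℕ} [NeZero m]

/-- the poles outside the cusps can be removed by an `m`-th power -/
theorem exists_Bd_mul {x : FK K N} (hx : KD m x) :
    ∃ (z : FK K N) (n : ℕ), z ≠ 0 ∧ Bd n (x * z ^ m) := by
  have hm : m ≠ 0 := NeZero.ne m
  obtain ⟨D, hD⟩ := Nod.exists_divisor hm hx.1 hx.2
  obtain ⟨c, hc⟩ := exists_riemann (K := K) (F := FK K N)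
  have ht := transcendental_jj (K := K) N
  have h1 : 0 < Divisor.degree (poleDiv K (jj K N)) := by
    haveI := fd (K := K) ht
    have h2 := degree_poleDiv_ge ht
    refine lt_of_lt_of_le ?_ h2
    exact_mod_cast Module.finrank_pos
  obtain ⟨n, hn⟩ : ∃ n : ℕ, |c| + |Divisor.degree D| + |(rrGenus K (FK K N) : ℤ)| ≤ n :=
    ⟨_, (Int.toNat_of_nonneg (by positivity)).symm.le⟩
  have h2 : Divisor.degree (D + (n : ℤ) • poleDiv K (jj K N)) =
      Divisor.degree D + n * Divisor.degree (poleDiv K (jj K N)) := by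
    rw [map_add, map_zsmul, smul_eq_mul]
  have h3 : (n : ℤ) ≤ n * Divisor.degree (poleDiv K (jj K N)) := by nlinarith
  have a1 := le_abs_self c
  have a2 := neg_abs_le (Divisor.degree D)
  have a3 := le_abs_self (rrGenus K (FK K N) : ℤ)
  have a4 := abs_nonneg c
  have a5 := abs_nonneg (rrGenus K (FK K N) : ℤ)
  have h4 := hc (D + (n : ℤ) • poleDiv K (jj K N)) (by rw [h2]; linarith)
  obtain ⟨z, hz0, hz⟩ := exists_ne_zero_of_ell_pos
    (D := D + (n : ℤ) • poleDiv K (jj K N)) (by rw [h4, h2]; linarith)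
  refine ⟨z, m * n, hz0, fun v => ?_⟩
  rw [v.ord_mul hx.1 (pow_ne_zero _ hz0), ord_pow, ← hD v]
  have h5 := (mem_L.1 hz v).resolve_left hz0
  rw [Finsupp.add_apply] at h5
  change -(D v + (n : ℤ) * (poleDiv K (jj K N) v)) ≤ v.ord z at h5
  rw [poleDiv_apply] at h5
  have h6 : min 0 (v.ord (jj K N)) = -max (-v.ord (jj K N)) 0 := by
    rcases le_total 0 (v.ord (jj K N)) with h7 | h7
    · rw [min_eq_left h7, max_eq_right (by omega)]; rfl
    · rw [min_eq_right h7, max_eq_left (by omega)]; omega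
  rw [h6]
  have hm' : (0 : ℤ) ≤ m := Int.natCast_nonneg m
  have h8 := mul_le_mul_of_nonneg_left h5 hm'
  push_cast
  linarith

variable (ι : K →+* ℂ)

/-- a class fixed by `I` has a representative fixed by `I` -/
theorem exists_fixed_rep {I : Set (K ≃ₐ[ℚ] K)} {ξ : XL N m}
    (hξ : ∀ σ ∈ I, rhoF ι m σ ξ = ξ) :
    ∃ x y z : FK K N, Good m x ∧ cls ι m x = ξ ∧ z ≠ 0 ∧ y = x * z ^ m ∧ KD m y ∧
      ∀ σ ∈ I, galK σ y = y := by
  obtain ⟨x, hx, hxξ⟩ := exists_cls_eq' (K := K) ι ξ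
  have hxm : KD m x := hx.of_dvd (dvd_mul_right _ _)
  obtain ⟨z₁, n, hz₁, hb⟩ := exists_Bd_mul hxm
  have hkd : KD m (x * z₁ ^ m) := hxm.mul (KD.pow_self hz₁)
  obtain ⟨z₂, hz₂, hcan⟩ := exists_isCan hkd hb
  have hy : x * z₁ ^ m * z₂ ^ m = x * (z₁ * z₂) ^ m := by rw [mul_pow]; ring
  rw [hy] at hcan
  refine ⟨x, x * (z₁ * z₂) ^ m, z₁ * z₂, hx, hxξ, mul_ne_zero hz₁ hz₂, rfl, hcan.kd, ?_⟩
  intro σ hσ
  have h1 : cls ι m (galK σ x) = cls ι m x := by
    rw [← rhoF_cls ι σ hx, hxξ, hξ σ hσ]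
  obtain ⟨w, hw⟩ := exists_mul_pow_of_cls_eq ι hx (KD.gal σ hx) h1.symm
  have hw0 : w ≠ 0 := by
    rintro rfl
    rw [zero_pow (NeZero.ne m), mul_zero] at hw
    exact (KD.gal σ hx).1 hw
  set z := z₁ * z₂ with hz
  have hz0 : z ≠ 0 := mul_ne_zero hz₁ hz₂
  have hgz0 : galK σ z ≠ 0 := galK_ne_zero σ hz0
  have h2 : galK σ (x * z ^ m) = x * z ^ m * (w * galK σ z / z) ^ m := by
    rw [map_mul, map_pow, hw, div_pow, mul_pow w]
    field_simp
  have h3 := hcan.gal σ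
  rw [h2] at h3
  rw [h2]
  exact hcan.unique (div_ne_zero (mul_ne_zero hw0 hgz0) hz0) h3

/-- vanishing of multiples of classes -/
theorem nsmul_eq_zero_of_pow {x y z t : FK K N} {c : ℕ} (hx : Good m x) (hz : z ≠ 0)
    (hy : y = x * z ^ m) (ht : y ^ c = t ^ m) : c • cls ι m x = 0 := by
  have h1 : x ^ c = (t / z ^ c) ^ m := by
    rw [div_pow, ← ht, hy, mul_pow, ← pow_mul, ← pow_mul, mul_comm m c]
    field_simp
  have h2 : Good m (x ^ c) := KD.pow hx c
  rw [← cls_pow ι hx, h1]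
  apply cls_eq_zero_of_pow ι
  rwa [← h1]

end Fermat.Agent.CarK
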